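import Fermat.Agent.Lib.S31.Petersson.HeckeAdj
import Fermat.Agent.Lib.ES.DimUpper

/-!
# S31-P: joint diagonalisation of the Hecke algebra on `S₂(Γ₀(N))` away from the level

`s31_diag : S31Diag N S` and `s31_hecke_reduced : IsReduced (CuspForm.heckeAlgebra N 2 S)` when
`S` contains all primes dividing `N`.
-/

set_option autoImplicit false

open MeasureTheory UpperHalfPlane Set Matrix.SpecialLinearGroup CongruenceSubgroup Module
open scoped Modular MatrixGroups ENNReal NNReal Pointwise ComplexConjugate Manifold ModularForm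

namespace Fermat.Agent.S31P

/-- the Petersson inner product as an `InnerProductSpace.Core`. -/
noncomputable def pCore (Γ : Subgroup SL(2, ℤ)) [Γ.FiniteIndex] (k : ℤ) :
    InnerProductSpace.Core ℂ (CuspForm Γ k) where
  inner f g := pInt Γ k f g
  conj_inner_symm f g := pInt_conj_symm Γ k f g
  re_inner_nonneg f := pInt_self_nonneg Γ k f
  add_left f₁ f₂ g := pInt_add_left Γ k f₁ f₂ g
  smul_left f g c := pInt_smul_left Γ k c f g
  definite f h := pInt_self_eq_zero Γ k f h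

open scoped Function in
/-- simultaneous diagonalisation of a commuting set of symmetric operators. -/
theorem iSup_iInf_eigenspace_of_core {V : Type*} [AddCommGroup V] [Module ℂ V]
    [FiniteDimensional ℂ V] (cd : InnerProductSpace.Core ℂ V) (𝒯 : Set (Module.End ℂ V))
    (hsym : ∀ T ∈ 𝒯, ∀ x y, cd.inner (T x) y = cd.inner x (T y))
    (hcomm : ∀ T ∈ 𝒯, ∀ T' ∈ 𝒯, Commute T T') :
    ⨆ χ : 𝒯 → ℂ, ⨅ T : 𝒯, Module.End.eigenspace (T : Module.End ℂ V) (χ T) = ⊤ := by
  let _ : NormedAddCommGroup V := @InnerProductSpace.Core.toNormedAddCommGroup ℂ V _ _ _ cd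
  let _ : InnerProductSpace ℂ V := InnerProductSpace.ofCore cd.toCore
  have hT : ∀ T : 𝒯, (T : V →ₗ[ℂ] V).IsSymmetric := fun T x y => hsym T T.2 x y
  have hC : Pairwise (Commute on fun T : 𝒯 => (T : V →ₗ[ℂ] V)) := fun T T' _ =>
    hcomm T T.2 T' T'.2
  exact LinearMap.IsSymmetric.iSup_iInf_eq_top_of_commute hT hC

/-- a basis of joint eigenvectors. -/
theorem exists_eigenbasis_of_core {V : Type*} [AddCommGroup V] [Module ℂ V]
    [FiniteDimensional ℂ V] (cd : InnerProductSpace.Core ℂ V) (𝒯 : Set (Module.End ℂ V))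
    (hsym : ∀ T ∈ 𝒯, ∀ x y, cd.inner (T x) y = cd.inner x (T y))
    (hcomm : ∀ T ∈ 𝒯, ∀ T' ∈ 𝒯, Commute T T') :
    ∃ (n : ℕ) (b : Basis (Fin n) ℂ V), ∀ i, ∀ T ∈ 𝒯, ∃ c : ℂ, T (b i) = c • b i := by
  classical
  have htop := iSup_iInf_eigenspace_of_core cd 𝒯 hsym hcomm
  rw [Submodule.iSup_eq_span] at htop
  set s : Set V := ⋃ χ : 𝒯 → ℂ, ((⨅ T : 𝒯, Module.End.eigenspace (T : Module.End ℂ V) (χ T) :
    Submodule ℂ V) : Set V) with hs
  obtain ⟨b, hbs, hspan, hli⟩ := exists_linearIndependent ℂ s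
  have hb_top : ⊤ ≤ Submodule.span ℂ (Set.range (Subtype.val : b → V)) := by
    rw [Subtype.range_coe, hspan, htop]
  let B : Basis b ℂ V := Basis.mk hli hb_top
  have : Finite b := Module.Finite.finite_basis B
  let _ : Fintype b := Fintype.ofFinite b
  refine ⟨Fintype.card b, B.reindex (Fintype.equivFin b), fun i T hT => ?_⟩
  have h1 : (B.reindex (Fintype.equivFin b)) i = (((Fintype.equivFin b).symm i : b) : V) := by
    simp [B]
  have h2 : (((Fintype.equivFin b).symm i : b) : V) ∈ s := hbs ((Fintype.equivFin b).symm i).2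
  rw [hs, Set.mem_iUnion] at h2
  obtain ⟨χ, hχ⟩ := h2
  rw [SetLike.mem_coe, Submodule.mem_iInf] at hχ
  have h3 := hχ ⟨T, hT⟩
  rw [Module.End.mem_eigenspace_iff] at h3
  exact ⟨χ ⟨T, hT⟩, by rw [h1]; exact h3⟩

/-- the subalgebra of endomorphisms having `v` as an eigenvector. -/
def eigenSubalgebra {V : Type*} [AddCommGroup V] [Module ℂ V] (v : V) :
    Subalgebra ℤ (Module.End ℂ V) where
  carrier := {t | ∃ c : ℂ, t v = c • v}
  mul_mem' := by
    rintro a b ⟨ca, ha⟩ ⟨cb, hb⟩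
    refine ⟨cb * ca, ?_⟩
    rw [Module.End.mul_apply, hb, map_smul, ha, smul_smul]
  add_mem' := by
    rintro a b ⟨ca, ha⟩ ⟨cb, hb⟩
    exact ⟨ca + cb, by rw [LinearMap.add_apply, ha, hb, add_smul]⟩
  algebraMap_mem' := by
    intro r
    refine ⟨(r : ℂ), ?_⟩
    rw [Algebra.algebraMap_eq_smul_one, LinearMap.smul_apply, Module.End.one_apply]
    exact (Int.cast_smul_eq_zsmul ℂ r v).symm

theorem exists_ringHom_of_eigenvector {V : Type*} [AddCommGroup V] [Module ℂ V]
    (𝒯 : Set (Module.End ℂ V)) (v : V) (hv : v ≠ 0) (h : ∀ T ∈ 𝒯, ∃ c : ℂ, T v = c • v) :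
    ∃ lam : Algebra.adjoin ℤ 𝒯 →+* ℂ,
      ∀ t : Algebra.adjoin ℤ 𝒯, (t : Module.End ℂ V) v = lam t • v := by
  classical
  have hle : Algebra.adjoin ℤ 𝒯 ≤ eigenSubalgebra v := Algebra.adjoin_le h
  have hex : ∀ t : Algebra.adjoin ℤ 𝒯, ∃ c : ℂ, (t : Module.End ℂ V) v = c • v := fun t => hle t.2
  choose lam hlam using hex
  have huniq : ∀ {c d : ℂ}, c • v = d • v → c = d := fun {c d} hcd => by
    have : (c - d) • v = 0 := by rw [sub_smul, hcd, sub_self]
    rcases smul_eq_zero.mp this with h0 | h0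
    · exact sub_eq_zero.mp h0
    · exact absurd h0 hv
  refine ⟨{ toFun := lam, map_one' := ?_, map_mul' := ?_, map_zero' := ?_, map_add' := ?_ }, hlam⟩
  · apply huniq
    rw [← hlam, one_smul]
    rfl
  · intro a b
    apply huniq
    rw [← hlam]
    show ((a : Module.End ℂ V) * (b : Module.End ℂ V)) v = _
    rw [Module.End.mul_apply, hlam b, map_smul, hlam a, smul_smul, mul_comm]
  · apply huniq
    rw [← hlam, zero_smul]
    rfl
  · intro a b
    apply huniq
    rw [← hlam]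
    show ((a : Module.End ℂ V) + (b : Module.End ℂ V)) v = _
    rw [LinearMap.add_apply, hlam a, hlam b, add_smul]

/-- joint diagonalisation of the Hecke algebra away from the level. -/
def S31Diag (N : ℕ) [NeZero N] (S : Set ℕ) : Prop :=
  ∃ (n : ℕ) (b : Basis (Fin n) ℂ (CuspForm (Gamma0 N) 2))
    (lam : Fin n → CuspForm.heckeAlgebra N 2 S →+* ℂ),
    ∀ (i : Fin n) (t : CuspForm.heckeAlgebra N 2 S),
      (t : Module.End ℂ (CuspForm (Gamma0 N) 2)) (b i) = lam i t • b i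

variable {N : ℕ} [NeZero N] {S : Set ℕ}

theorem heckeGenerators_sym (hNS : ∀ q : ℕ, q.Prime → q ∣ N → q ∈ S) :
    ∀ T ∈ CuspForm.heckeGenerators N 2 S, ∀ f g : CuspForm (Gamma0 N) 2,
      (pCore (Gamma0 N) 2).inner (T f) g = (pCore (Gamma0 N) 2).inner f (T g) := by
  rintro T (⟨ℓ, hℓ, hℓN, -, rfl⟩ | ⟨q, hqN, hq, hqS, rfl⟩) f g
  · exact pInt_heckeT_adjoint N hℓ hℓN f g
  · exact absurd (hNS q hq hqN) hqS

theorem s31_diag (hNS : ∀ q : ℕ, q.Prime → q ∣ N → q ∈ S) : S31Diag N S := by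
  obtain ⟨n, b, hb⟩ := exists_eigenbasis_of_core (pCore (Gamma0 N) 2)
    (CuspForm.heckeGenerators N 2 S) (heckeGenerators_sym hNS)
    (fun T hT T' hT' => CuspForm.commute_of_mem_heckeGenerators hT hT')
  have hex : ∀ i, ∃ lam : CuspForm.heckeAlgebra N 2 S →+* ℂ,
      ∀ t : CuspForm.heckeAlgebra N 2 S,
        (t : Module.End ℂ (CuspForm (Gamma0 N) 2)) (b i) = lam t • b i := fun i =>
    exists_ringHom_of_eigenvector (CuspForm.heckeGenerators N 2 S) (b i) (b.ne_zero i) (hb i)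
  choose lam hlam using hex
  exact ⟨n, b, lam, hlam⟩

theorem s31_hecke_reduced (hNS : ∀ q : ℕ, q.Prime → q ∣ N → q ∈ S) :
    IsReduced (CuspForm.heckeAlgebra N 2 S) := by
  obtain ⟨n, b, lam, hlam⟩ := s31_diag (N := N) (S := S) hNS
  refine ⟨fun x hx => ?_⟩
  obtain ⟨m, hm⟩ := hx
  have hzero : ∀ i, lam i x = 0 := fun i => by
    have := congrArg (lam i) hm
    rw [map_pow, map_zero] at this
    exact eq_zero_of_pow_eq_zero this
  apply Subtype.ext
  apply b.ext
  intro i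
  rw [hlam i x, hzero i, zero_smul]
  simp

end Fermat.Agent.S31P
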