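import Fermat.Agent.Lib.S31.Petersson.Inner

/-!
# S31-P: abstract adjointness of a weight two Hecke operator

For a coset system `ρ : X → GL(2,ℝ)⁺` of a group `Γ`, transitive under right multiplication by `Γ`
and stable under the adjugate, the operator `f ↦ ∑ x, f ∣[2] ρ x` is self-adjoint for the Petersson
integral over a fundamental domain of `Γ`.
-/

set_option autoImplicit false

open MeasureTheory UpperHalfPlane Set Matrix.SpecialLinearGroup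
open scoped Modular MatrixGroups ENNReal NNReal Pointwise ComplexConjugate Manifold ModularForm

namespace Fermat.Agent.S31P

/-- weight two Petersson integrand under a common slash by a matrix of positive determinant. -/
theorem petersson_two_slash (F G : ℍ → ℂ) (a : GL (Fin 2) ℝ) (ha : 0 < a.det.val) (τ : ℍ) :
    petersson 2 (F ∣[(2 : ℤ)] a) (G ∣[(2 : ℤ)] a) τ = petersson 2 F G (a • τ) := by
  rw [petersson_slash]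
  have : σ a = .refl ℝ ℂ := by rw [σ, if_pos ha]
  rw [this]
  simp

theorem continuous_slash {F : ℍ → ℂ} (hF : Continuous F) (k : ℤ) (a : GL (Fin 2) ℝ) :
    Continuous (F ∣[k] a) := by
  have h1 : F ∣[k] a = fun τ => σ a (F (a • τ)) * |a.det.val| ^ (k - 1) * denom a τ ^ (-k) := by
    ext τ
    rw [ModularForm.slash_apply]
  rw [h1]
  have h2 : Continuous fun τ : ℍ => a • τ := continuous_const_smul a
  have h3 : Continuous fun τ : ℍ => denom a τ := by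
    unfold denom
    fun_prop
  have h4 : Continuous fun τ : ℍ => denom a τ ^ (-k) :=
    h3.zpow₀ _ fun τ => Or.inl (denom_ne_zero a τ)
  exact (((σ a).continuous.comp (hF.comp h2)).mul continuous_const).mul h4

/-- the Cauchy–Schwarz type bound for the Petersson integrand. -/
theorem norm_petersson_le (k : ℤ) (F G : ℍ → ℂ) (τ : ℍ) :
    ‖petersson k F G τ‖ ≤ (‖petersson k F F τ‖ + ‖petersson k G G τ‖) / 2 := by
  simp only [petersson, norm_mul, Complex.norm_conj, norm_zpow, Complex.norm_real]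
  have h : 0 ≤ ‖τ.im‖ ^ k := by positivity
  nlinarith [sq_nonneg (‖F τ‖ - ‖G τ‖), norm_nonneg (F τ), norm_nonneg (G τ)]

/-- data for the adjointness of the operator `f ↦ ∑ x, f ∣[2] ρ x` on `Γ`-invariant functions. -/
structure AdjData (Γ : Subgroup (GL (Fin 2) ℝ)) (X : Type) where
  ρ : X → GL (Fin 2) ℝ
  det_pos : ∀ x, 0 < (ρ x).det.val
  x₀ : X
  act₀ : ∀ γ ∈ Γ, ∃ y, ∃ ε ∈ Γ, ρ x₀ * γ = ε * ρ y
  inj : ∀ x y, ∀ ε ∈ Γ, ρ x = ε * ρ y → x = y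
  s : X → GL (Fin 2) ℝ
  s_mem : ∀ x, s x ∈ Γ
  e : X → GL (Fin 2) ℝ
  e_mem : ∀ x, e x ∈ Γ
  rel : ∀ x, ρ x₀ * s x = e x * ρ x
  x₁ : X
  central : ∀ a : GL (Fin 2) ℝ, a * (ρ x₁ * ρ x₀) = (ρ x₁ * ρ x₀) * a
  slash_triv : ∀ F : ℍ → ℂ, F ∣[(2 : ℤ)] (ρ x₁ * ρ x₀) = F

namespace AdjData

variable {Γ : Subgroup (GL (Fin 2) ℝ)} {X : Type} (A : AdjData Γ X)

/-- the stabiliser of the base coset. -/
def stab : Subgroup (GL (Fin 2) ℝ) :=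
  Γ ⊓ Γ.comap (MulAut.conj (A.ρ A.x₀)).toMonoidHom

theorem mem_stab {γ : GL (Fin 2) ℝ} :
    γ ∈ A.stab ↔ γ ∈ Γ ∧ A.ρ A.x₀ * γ * (A.ρ A.x₀)⁻¹ ∈ Γ := by
  simp [stab, Subgroup.mem_inf, Subgroup.mem_comap]

theorem stab_le : A.stab ≤ Γ := inf_le_left

/-- the normalising element `w = s x₁ * ρ x₀`. -/
def w : GL (Fin 2) ℝ := A.s A.x₁ * A.ρ A.x₀

theorem w_eq : A.w = (A.ρ A.x₀)⁻¹ * A.e A.x₁ * (A.ρ A.x₁ * A.ρ A.x₀) := by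
  have h := A.rel A.x₁
  have : A.s A.x₁ = (A.ρ A.x₀)⁻¹ * (A.e A.x₁ * A.ρ A.x₁) := by
    rw [← h]; group
  rw [w, this]; group

theorem w_conj_mem {γ : GL (Fin 2) ℝ} (hγ : γ ∈ A.stab) : A.w * γ * A.w⁻¹ ∈ A.stab := by
  rw [mem_stab] at hγ ⊢
  obtain ⟨h1, h2⟩ := hγ
  constructor
  · have : A.w * γ * A.w⁻¹ = A.s A.x₁ * (A.ρ A.x₀ * γ * (A.ρ A.x₀)⁻¹) * (A.s A.x₁)⁻¹ := by
      rw [w]; group
    rw [this]
    exact Γ.mul_mem (Γ.mul_mem (A.s_mem _) h2) (Γ.inv_mem (A.s_mem _))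
  · have hz := A.central
    set z := A.ρ A.x₁ * A.ρ A.x₀ with hzdef
    have h3 : A.ρ A.x₀ * A.w = A.e A.x₁ * z := by
      rw [w, ← mul_assoc, A.rel A.x₁, mul_assoc]
    have : A.ρ A.x₀ * (A.w * γ * A.w⁻¹) * (A.ρ A.x₀)⁻¹ =
        (A.ρ A.x₀ * A.w) * γ * (A.ρ A.x₀ * A.w)⁻¹ := by group
    rw [this, h3]
    have : A.e A.x₁ * z * γ * (A.e A.x₁ * z)⁻¹ = A.e A.x₁ * γ * (A.e A.x₁)⁻¹ := by
      have hzγ : z * γ = γ * z := (hz γ).symm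
      calc A.e A.x₁ * z * γ * (A.e A.x₁ * z)⁻¹
          = A.e A.x₁ * (z * γ) * z⁻¹ * (A.e A.x₁)⁻¹ := by group
        _ = A.e A.x₁ * (γ * z) * z⁻¹ * (A.e A.x₁)⁻¹ := by rw [hzγ]
        _ = A.e A.x₁ * γ * (A.e A.x₁)⁻¹ := by group
    rw [this]
    exact Γ.mul_mem (Γ.mul_mem (A.e_mem _) h1) (Γ.inv_mem (A.e_mem _))

theorem w_inv_conj_mem {γ : GL (Fin 2) ℝ} (hγ : γ ∈ A.stab) : A.w⁻¹ * γ * A.w ∈ A.stab := by
  rw [mem_stab] at hγ ⊢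
  obtain ⟨h1, h2⟩ := hγ
  have hz := A.central
  set z := A.ρ A.x₁ * A.ρ A.x₀ with hzdef
  constructor
  · have : A.w⁻¹ * γ * A.w = (A.e A.x₁)⁻¹ * (A.ρ A.x₀ * γ * (A.ρ A.x₀)⁻¹) * A.e A.x₁ := by
      rw [w_eq, ← hzdef]
      have hzγ : ∀ a, z * a = a * z := fun a => (hz a).symm
      calc ((A.ρ A.x₀)⁻¹ * A.e A.x₁ * z)⁻¹ * γ * ((A.ρ A.x₀)⁻¹ * A.e A.x₁ * z)
          = z⁻¹ * ((A.e A.x₁)⁻¹ * A.ρ A.x₀ * γ * (A.ρ A.x₀)⁻¹ * A.e A.x₁ * z) := by group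
        _ = z⁻¹ * (z * ((A.e A.x₁)⁻¹ * A.ρ A.x₀ * γ * (A.ρ A.x₀)⁻¹ * A.e A.x₁)) := by
            rw [hzγ]
        _ = (A.e A.x₁)⁻¹ * (A.ρ A.x₀ * γ * (A.ρ A.x₀)⁻¹) * A.e A.x₁ := by group
    rw [this]
    exact Γ.mul_mem (Γ.mul_mem (Γ.inv_mem (A.e_mem _)) h2) (A.e_mem _)
  · have : A.ρ A.x₀ * (A.w⁻¹ * γ * A.w) * (A.ρ A.x₀)⁻¹ = (A.s A.x₁)⁻¹ * γ * A.s A.x₁ := by
      rw [w]; group
    rw [this]
    exact Γ.mul_mem (Γ.mul_mem (Γ.inv_mem (A.s_mem _)) h1) (A.s_mem _)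

theorem w_normalises (γ : GL (Fin 2) ℝ) : γ ∈ A.stab ↔ A.w⁻¹ * γ * A.w ∈ A.stab := by
  refine ⟨A.w_inv_conj_mem, fun h => ?_⟩
  have := A.w_conj_mem h
  have h2 : A.w * (A.w⁻¹ * γ * A.w) * A.w⁻¹ = γ := by group
  rwa [h2] at this

theorem stab_hex : ∀ g ∈ Γ, ∃ x, g * (A.s x)⁻¹ ∈ A.stab := by
  intro g hg
  obtain ⟨y, ε, hε, h⟩ := A.act₀ g hg
  refine ⟨y, ?_⟩
  rw [mem_stab]
  refine ⟨Γ.mul_mem hg (Γ.inv_mem (A.s_mem y)), ?_⟩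
  have h2 := A.rel y
  have h3 : A.ρ A.x₀ * (g * (A.s y)⁻¹) * (A.ρ A.x₀)⁻¹ = ε * (A.e y)⁻¹ := by
    have : A.ρ y = (A.e y)⁻¹ * (A.ρ A.x₀ * A.s y) := by rw [h2]; group
    calc A.ρ A.x₀ * (g * (A.s y)⁻¹) * (A.ρ A.x₀)⁻¹
        = (A.ρ A.x₀ * g) * (A.s y)⁻¹ * (A.ρ A.x₀)⁻¹ := by group
      _ = (ε * A.ρ y) * (A.s y)⁻¹ * (A.ρ A.x₀)⁻¹ := by rw [h]
      _ = (ε * ((A.e y)⁻¹ * (A.ρ A.x₀ * A.s y))) * (A.s y)⁻¹ * (A.ρ A.x₀)⁻¹ := by rw [← this]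
      _ = ε * (A.e y)⁻¹ := by group
  rw [h3]
  exact Γ.mul_mem hε (Γ.inv_mem (A.e_mem y))

theorem stab_huniq : ∀ x y, A.s x * (A.s y)⁻¹ ∈ A.stab → x = y := by
  intro x y h
  rw [mem_stab] at h
  obtain ⟨-, h⟩ := h
  set u := A.ρ A.x₀ * (A.s x * (A.s y)⁻¹) * (A.ρ A.x₀)⁻¹ with hudef
  have h1 : A.ρ A.x₀ * A.s x = u * (A.ρ A.x₀ * A.s y) := by rw [hudef]; group
  rw [A.rel x, A.rel y] at h1
  refine A.inj x y ((A.e x)⁻¹ * u * A.e y)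
    (Γ.mul_mem (Γ.mul_mem (Γ.inv_mem (A.e_mem x)) h) (A.e_mem y)) ?_
  calc A.ρ x = (A.e x)⁻¹ * (A.e x * A.ρ x) := by group
    _ = (A.e x)⁻¹ * (u * (A.e y * A.ρ y)) := by rw [h1]
    _ = (A.e x)⁻¹ * u * A.e y * A.ρ y := by group

theorem stab_hK (hker : ∀ γ ∈ Γ, (∀ τ : ℍ, γ • τ = τ) → ∀ a : GL (Fin 2) ℝ, a * γ = γ * a) :
    ∀ g ∈ Γ, (∀ τ : ℍ, g • τ = τ) → g ∈ A.stab := by
  intro g hg htriv
  rw [mem_stab]
  refine ⟨hg, ?_⟩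
  rw [hker g hg htriv]
  simpa using hg

section main

variable {f g : ℍ → ℂ} (hf : ∀ γ ∈ Γ, f ∣[(2 : ℤ)] γ = f) (hg : ∀ γ ∈ Γ, g ∣[(2 : ℤ)] γ = g)
  (hdet : ∀ γ ∈ Γ, 0 < γ.det.val)

include hf in
theorem slash_rho (x : X) : f ∣[(2 : ℤ)] A.ρ x = (f ∣[(2 : ℤ)] A.ρ A.x₀) ∣[(2 : ℤ)] A.s x := by
  rw [← SlashAction.slash_mul, A.rel x, SlashAction.slash_mul, hf _ (A.e_mem x)]

include hf hg hdet in
theorem petersson_rho_left (x : X) (τ : ℍ) :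
    petersson 2 (f ∣[(2 : ℤ)] A.ρ x) g τ =
      petersson 2 (f ∣[(2 : ℤ)] A.ρ A.x₀) g (A.s x • τ) := by
  rw [A.slash_rho hf x, ← petersson_two_slash _ _ _ (hdet _ (A.s_mem x)), hg _ (A.s_mem x)]

include hf hg hdet in
theorem petersson_rho_right (x : X) (τ : ℍ) :
    petersson 2 f (g ∣[(2 : ℤ)] A.ρ x) τ =
      petersson 2 f (g ∣[(2 : ℤ)] A.ρ A.x₀) (A.s x • τ) := by
  rw [A.slash_rho hg x, ← petersson_two_slash _ _ _ (hdet _ (A.s_mem x)), hf _ (A.s_mem x)]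

include hg in
theorem slash_rho_inv :
    g ∣[(2 : ℤ)] (A.ρ A.x₀)⁻¹ = (g ∣[(2 : ℤ)] A.ρ A.x₀) ∣[(2 : ℤ)] A.s A.x₁ := by
  rw [← A.slash_rho hg A.x₁]
  have h1 : A.ρ A.x₁ = (A.ρ A.x₁ * A.ρ A.x₀) * (A.ρ A.x₀)⁻¹ := by group
  conv_rhs => rw [h1, SlashAction.slash_mul, A.slash_triv]

include hf hg hdet in
theorem petersson_w (τ : ℍ) :
    petersson 2 (f ∣[(2 : ℤ)] A.ρ A.x₀) g τ =
      petersson 2 f (g ∣[(2 : ℤ)] A.ρ A.x₀) (A.w • τ) := by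
  have h1 : g = (g ∣[(2 : ℤ)] (A.ρ A.x₀)⁻¹) ∣[(2 : ℤ)] A.ρ A.x₀ := by
    rw [← SlashAction.slash_mul, inv_mul_cancel, SlashAction.slash_one]
  conv_lhs => rw [h1]
  rw [petersson_two_slash _ _ _ (A.det_pos _), A.slash_rho_inv hg]
  conv_lhs => rw [← hf _ (A.s_mem A.x₁)]
  rw [petersson_two_slash _ _ _ (hdet _ (A.s_mem _)), w, mul_smul]

include hf hg hdet in
theorem petersson_stab_inv (γ : GL (Fin 2) ℝ) (hγ : γ ∈ A.stab) (τ : ℍ) :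
    petersson 2 f (g ∣[(2 : ℤ)] A.ρ A.x₀) (γ • τ) =
      petersson 2 f (g ∣[(2 : ℤ)] A.ρ A.x₀) τ := by
  rw [mem_stab] at hγ
  rw [← petersson_two_slash _ _ _ (hdet _ hγ.1), hf _ hγ.1, ← SlashAction.slash_mul]
  have : A.ρ A.x₀ * γ = (A.ρ A.x₀ * γ * (A.ρ A.x₀)⁻¹) * A.ρ A.x₀ := by group
  rw [this, SlashAction.slash_mul, hg _ hγ.2]

theorem norm_petersson_slash_le {C₁ C₂ : ℝ} {F G : ℍ → ℂ}
    (hF : ∀ τ, ‖petersson 2 F F τ‖ ≤ C₁) (hG : ∀ τ, ‖petersson 2 G G τ‖ ≤ C₂)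
    (a b : GL (Fin 2) ℝ) (ha : 0 < a.det.val) (hb : 0 < b.det.val) (τ : ℍ) :
    ‖petersson 2 (F ∣[(2 : ℤ)] a) (G ∣[(2 : ℤ)] b) τ‖ ≤ (C₁ + C₂) / 2 := by
  refine (norm_petersson_le 2 _ _ τ).trans ?_
  rw [petersson_two_slash _ _ _ ha, petersson_two_slash _ _ _ hb]
  have := hF (a • τ)
  have := hG (b • τ)
  linarith

include hf hg hdet in
theorem adjoint_sum [Fintype X] [Countable Γ] {D : Set ℍ} (hD : IsFD Γ D volume)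
    (hDfin : volume D < ⊤)
    (hker : ∀ γ ∈ Γ, (∀ τ : ℍ, γ • τ = τ) → ∀ a : GL (Fin 2) ℝ, a * γ = γ * a)
    (hfc : Continuous f) (hgc : Continuous g) {Cf Cg : ℝ}
    (hfb : ∀ τ, ‖petersson 2 f f τ‖ ≤ Cf) (hgb : ∀ τ, ‖petersson 2 g g τ‖ ≤ Cg) :
    ∑ x, ∫ τ in D, petersson 2 (f ∣[(2 : ℤ)] A.ρ x) g τ =
      ∑ x, ∫ τ in D, petersson 2 f (g ∣[(2 : ℤ)] A.ρ x) τ := by
  set Φ₁ : ℍ → ℂ := petersson 2 (f ∣[(2 : ℤ)] A.ρ A.x₀) g with hΦ₁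
  set Φ₂ : ℍ → ℂ := petersson 2 f (g ∣[(2 : ℤ)] A.ρ A.x₀) with hΦ₂
  have hc1 : Continuous Φ₁ := petersson_continuous 2 (continuous_slash hfc 2 _) hgc
  have hc2 : Continuous Φ₂ := petersson_continuous 2 hfc (continuous_slash hgc 2 _)
  have hb1 : ∀ τ, ‖Φ₁ τ‖ ≤ (Cf + Cg) / 2 := fun τ => by
    have := norm_petersson_slash_le hfb hgb (A.ρ A.x₀) 1 (A.det_pos _) (by simp) τ
    rwa [SlashAction.slash_one] at this
  have hb2 : ∀ τ, ‖Φ₂ τ‖ ≤ (Cf + Cg) / 2 := fun τ => by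
    have := norm_petersson_slash_le hfb hgb 1 (A.ρ A.x₀) (by simp) (A.det_pos _) τ
    rwa [SlashAction.slash_one] at this
  have hi1 : ∀ a : GL (Fin 2) ℝ, IntegrableOn (fun τ => Φ₁ (a • τ)) D volume := fun a =>
    s31p_integrableOn_of_bounded (hc1.comp (continuous_const_smul a)) (fun τ => hb1 _) hDfin
  have hi2 : ∀ a : GL (Fin 2) ℝ, IntegrableOn (fun τ => Φ₂ (a • τ)) D volume := fun a =>
    s31p_integrableOn_of_bounded (hc2.comp (continuous_const_smul a)) (fun τ => hb2 _) hDfin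
  have hD₁ : IsFD A.stab (⋃ x, A.s x • D) volume :=
    hD.sub A.s A.s_mem A.stab_le (A.stab_hK hker) A.stab_hex A.stab_huniq
  have e1 : ∑ x, ∫ τ in D, petersson 2 (f ∣[(2 : ℤ)] A.ρ x) g τ =
      ∫ τ in ⋃ x, A.s x • D, Φ₁ τ := by
    rw [hD.setIntegral_iUnion A.s A.s_mem (A.stab_hK hker) A.stab_huniq (fun x => hi1 _)]
    refine Finset.sum_congr rfl fun x _ => ?_
    refine integral_congr_ae (Filter.Eventually.of_forall fun τ => ?_)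
    exact A.petersson_rho_left hf hg hdet x τ
  have e2 : ∑ x, ∫ τ in D, petersson 2 f (g ∣[(2 : ℤ)] A.ρ x) τ =
      ∫ τ in ⋃ x, A.s x • D, Φ₂ τ := by
    rw [hD.setIntegral_iUnion A.s A.s_mem (A.stab_hK hker) A.stab_huniq (fun x => hi2 _)]
    refine Finset.sum_congr rfl fun x _ => ?_
    refine integral_congr_ae (Filter.Eventually.of_forall fun τ => ?_)
    exact A.petersson_rho_right hf hg hdet x τ
  rw [e1, e2]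
  have hcountable : Countable A.stab :=
    (Subgroup.inclusion_injective A.stab_le).countable
  calc ∫ τ in ⋃ x, A.s x • D, Φ₁ τ
      = ∫ τ in ⋃ x, A.s x • D, Φ₂ (A.w • τ) :=
        integral_congr_ae (Filter.Eventually.of_forall fun τ => A.petersson_w hf hg hdet τ)
    _ = ∫ τ in A.w • ⋃ x, A.s x • D, Φ₂ τ := (s31p_setIntegral_smul _ _ _).symm
    _ = ∫ τ in ⋃ x, A.s x • D, Φ₂ τ :=
        (hD₁.conj A.w A.w_normalises).setIntegral_eq hD₁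
          (fun γ hγ τ => A.petersson_stab_inv hf hg hdet γ hγ τ)

end main

end AdjData

end Fermat.Agent.S31P
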