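import Mathlib

/-!
# S31-P: fundamental domains for non-faithful actions

`IsFD Γ D μ`: `D` is a fundamental domain for the action of the subgroup `Γ ≤ G` on `α`, where
elements of `Γ` acting trivially are allowed (e.g. `-1 ∈ SL(2,ℤ)` on the upper half plane).
We pass to the image of `Γ` in `Equiv.Perm α` to use Mathlib's `IsFundamentalDomain` API.
-/

set_option autoImplicit false

open MeasureTheory Set
open scoped Pointwise Function

namespace Fermat.Agent.S31P

variable {G α : Type*} [Group G] [MulAction G α] [MeasurableSpace α]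

/-- `D` is a fundamental domain for the (possibly non-faithful) action of the subgroup `Γ` of `G`
on `α`: translates by elements acting non-trivially are a.e.-disjoint. -/
structure IsFD (Γ : Subgroup G) (D : Set α) (μ : Measure α) : Prop where
  nullMeasurableSet : NullMeasurableSet D μ
  ae_covers : ∀ᵐ x ∂μ, ∃ g ∈ Γ, g • x ∈ D
  aedisjoint : ∀ g ∈ Γ, (∃ x : α, g • x ≠ x) → AEDisjoint μ (g • D) D

/-- the image of `Γ` in the permutation group of `α`: a faithful quotient of `Γ`. -/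
abbrev barGroup (Γ : Subgroup G) : Subgroup (Equiv.Perm α) :=
  Γ.map (MulAction.toPermHom G α)

theorem barGroup_smul (Γ : Subgroup G) (σ : barGroup (α := α) Γ) :
    ∃ g ∈ Γ, ∀ x : α, σ • x = g • x := by
  obtain ⟨g, hg, hσ⟩ := σ.2
  refine ⟨g, hg, fun x => ?_⟩
  show (σ : Equiv.Perm α) x = g • x
  rw [← hσ]
  rfl

variable {μ : Measure α} [MeasurableConstSMul G α] [SMulInvariantMeasure G α μ]

instance barGroup_measurableConstSMul (Γ : Subgroup G) :
    MeasurableConstSMul (barGroup (α := α) Γ) α := by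
  constructor
  intro σ
  obtain ⟨g, -, hg⟩ := barGroup_smul Γ σ
  have : (fun x : α => σ • x) = fun x => g • x := funext hg
  rw [this]
  exact measurable_const_smul g

instance barGroup_smulInvariantMeasure (Γ : Subgroup G) :
    SMulInvariantMeasure (barGroup (α := α) Γ) α μ := by
  constructor
  intro σ s hs
  obtain ⟨g, -, hg⟩ := barGroup_smul Γ σ
  have : (fun x : α => σ • x) = fun x => g • x := funext hg
  rw [this]
  exact measure_preimage_smul _ _ _

instance barGroup_countable (Γ : Subgroup G) [Countable Γ] :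
    Countable (barGroup (α := α) Γ) := by
  have : Function.Surjective (fun g : Γ => (⟨MulAction.toPermHom G α g,
      Subgroup.mem_map_of_mem _ g.2⟩ : barGroup (α := α) Γ)) := by
    rintro ⟨σ, g, hg, rfl⟩
    exact ⟨⟨g, hg⟩, rfl⟩
  exact this.countable

theorem IsFD.isFundamentalDomain {Γ : Subgroup G} {D : Set α} (h : IsFD Γ D μ) :
    IsFundamentalDomain (barGroup (α := α) Γ) D μ := by
  refine IsFundamentalDomain.mk'' h.nullMeasurableSet ?_ ?_ ?_
  · filter_upwards [h.ae_covers] with x hx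
    obtain ⟨g, hg, hgx⟩ := hx
    exact ⟨⟨MulAction.toPermHom G α g, Subgroup.mem_map_of_mem _ hg⟩, hgx⟩
  · intro σ hσ
    obtain ⟨g, hg, hgσ⟩ := barGroup_smul Γ σ
    have hne : ∃ x : α, g • x ≠ x := by
      by_contra hcon
      push Not at hcon
      apply hσ
      apply Subtype.ext
      apply Equiv.ext
      intro x
      show σ • x = x
      rw [hgσ, hcon]
    have h1 := h.aedisjoint g hg hne
    have h2 : σ • D = g • D := by
      ext y
      simp only [mem_smul_set]
      constructor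
      · rintro ⟨x, hx, rfl⟩
        exact ⟨x, hx, (hgσ x).symm⟩
      · rintro ⟨x, hx, rfl⟩
        exact ⟨x, hx, hgσ x⟩
    rw [h2]
    exact h1
  · intro σ
    exact (measurePreserving_smul σ μ).quasiMeasurePreserving

theorem IsFD.setIntegral_eq {Γ : Subgroup G} [Countable Γ] {D₁ D₂ : Set α}
    (h₁ : IsFD Γ D₁ μ) (h₂ : IsFD Γ D₂ μ) {E : Type*} [NormedAddCommGroup E] [NormedSpace ℝ E]
    {F : α → E} (hF : ∀ g ∈ Γ, ∀ x, F (g • x) = F x) :
    ∫ x in D₁, F x ∂μ = ∫ x in D₂, F x ∂μ := by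
  refine h₁.isFundamentalDomain.setIntegral_eq h₂.isFundamentalDomain ?_
  intro σ x
  obtain ⟨g, hg, hgσ⟩ := barGroup_smul Γ σ
  rw [hgσ, hF g hg]

theorem IsFD.measure_eq {Γ : Subgroup G} [Countable Γ] {D₁ D₂ : Set α}
    (h₁ : IsFD Γ D₁ μ) (h₂ : IsFD Γ D₂ μ) : μ D₁ = μ D₂ :=
  h₁.isFundamentalDomain.measure_eq h₂.isFundamentalDomain

theorem s31p_aedisjoint_smul {s t : Set α} (a : G) (h : AEDisjoint μ s t) :
    AEDisjoint μ (a • s) (a • t) := by
  rw [AEDisjoint, ← smul_set_inter, measure_smul]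
  exact h

theorem s31p_nullMeasurableSet_smul {s : Set α} (a : G) (h : NullMeasurableSet s μ) :
    NullMeasurableSet (a • s) μ := h.smul a

/-- conjugating a fundamental domain. -/
theorem IsFD.conj {Γ Γ₂ : Subgroup G} {D : Set α} (h : IsFD Γ D μ) (a : G)
    (hΓ : ∀ g, g ∈ Γ₂ ↔ a⁻¹ * g * a ∈ Γ) : IsFD Γ₂ (a • D) μ := by
  refine ⟨h.nullMeasurableSet.smul a, ?_, ?_⟩
  · have hq := (measurePreserving_smul a⁻¹ μ).quasiMeasurePreserving
    filter_upwards [hq.ae h.ae_covers] with x hx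
    obtain ⟨g, hg, hgx⟩ := hx
    refine ⟨a * g * a⁻¹, ?_, ?_⟩
    · rw [hΓ]
      simpa [mul_assoc] using hg
    · rw [mem_smul_set]
      refine ⟨g • a⁻¹ • x, hgx, ?_⟩
      simp [mul_smul]
  · intro g hg hne
    have hg' := (hΓ g).mp hg
    have hne' : ∃ x : α, (a⁻¹ * g * a) • x ≠ x := by
      obtain ⟨x, hx⟩ := hne
      refine ⟨a⁻¹ • x, fun hcon => hx ?_⟩
      have := congrArg (fun y => a • y) hcon
      simpa [mul_smul] using this
    have h1 := s31p_aedisjoint_smul (μ := μ) a (h.aedisjoint _ hg' hne')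
    have h2 : a • (a⁻¹ * g * a) • D = g • a • D := by
      simp [smul_smul, mul_assoc]
    rwa [h2] at h1

/-- a fundamental domain for a subgroup from coset representatives. -/
theorem IsFD.sub {Γ Γ' : Subgroup G} {D : Set α} (h : IsFD Γ D μ) {ι : Type*} [Countable ι]
    (r : ι → G) (hr : ∀ i, r i ∈ Γ) (hle : Γ' ≤ Γ)
    (hK : ∀ g ∈ Γ, (∀ x : α, g • x = x) → g ∈ Γ')
    (hex : ∀ g ∈ Γ, ∃ i, g * (r i)⁻¹ ∈ Γ')
    (huniq : ∀ i j, r i * (r j)⁻¹ ∈ Γ' → i = j) :
    IsFD Γ' (⋃ i, r i • D) μ := by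
  refine ⟨NullMeasurableSet.iUnion fun i => h.nullMeasurableSet.smul (r i), ?_, ?_⟩
  · filter_upwards [h.ae_covers] with x hx
    obtain ⟨g, hg, hgx⟩ := hx
    obtain ⟨i, hi⟩ := hex g⁻¹ (Γ.inv_mem hg)
    refine ⟨r i * g, ?_, ?_⟩
    · have := Γ'.inv_mem hi
      simpa using this
    · rw [mem_iUnion]
      exact ⟨i, by rw [mul_smul]; exact smul_mem_smul_set hgx⟩
  · intro g' hg' hne
    rw [AEDisjoint, smul_set_iUnion, iUnion_inter_iUnion]
    rw [measure_iUnion_null_iff]
    intro i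
    rw [measure_iUnion_null_iff]
    intro j
    show μ (g' • r i • D ∩ r j • D) = 0
    have hmem : (r j)⁻¹ * g' * r i ∈ Γ :=
      Γ.mul_mem (Γ.mul_mem (Γ.inv_mem (hr j)) (hle hg')) (hr i)
    by_cases htriv : ∀ x : α, ((r j)⁻¹ * g' * r i) • x = x
    · exfalso
      have h1 : r j * ((r j)⁻¹ * g' * r i)⁻¹ * (r j)⁻¹ ∈ Γ' := by
        apply hK _ (Γ.mul_mem (Γ.mul_mem (hr j) (Γ.inv_mem hmem)) (Γ.inv_mem (hr j)))
        intro x
        have := htriv ((r j)⁻¹ • x)
        rw [mul_smul, mul_smul]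
        have h2 : ((r j)⁻¹ * g' * r i)⁻¹ • (r j)⁻¹ • x = (r j)⁻¹ • x := by
          rw [inv_smul_eq_iff, this]
        rw [h2, smul_inv_smul]
      have h2 : r j * (r i)⁻¹ ∈ Γ' := by
        have := Γ'.mul_mem h1 hg'
        have h3 : r j * ((r j)⁻¹ * g' * r i)⁻¹ * (r j)⁻¹ * g' = r j * (r i)⁻¹ := by group
        rwa [h3] at this
      have hij := huniq j i h2
      subst hij
      obtain ⟨x, hx⟩ := hne
      apply hx
      have := htriv ((r j)⁻¹ • x)
      have h3 : g' • x = r j • ((r j)⁻¹ * g' * r j) • (r j)⁻¹ • x := by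
        simp [smul_smul, mul_assoc]
      rw [h3, this, smul_inv_smul]
    · push Not at htriv
      have h1 := s31p_aedisjoint_smul (μ := μ) (r j) (h.aedisjoint _ hmem htriv)
      have h2 : r j • ((r j)⁻¹ * g' * r i) • D = g' • r i • D := by
        simp [smul_smul, mul_assoc]
      rw [h2] at h1
      exact h1

theorem s31p_setIntegral_smul {E : Type*} [NormedAddCommGroup E] [NormedSpace ℝ E]
    (a : G) (F : α → E) (D : Set α) :
    ∫ x in a • D, F x ∂μ = ∫ x in D, F (a • x) ∂μ := by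
  rw [← image_smul]
  exact (measurePreserving_smul a μ).setIntegral_image_emb (measurableEmbedding_const_smul a) F D

theorem s31p_integrableOn_smul {E : Type*} [NormedAddCommGroup E]
    (a : G) (F : α → E) (D : Set α) :
    IntegrableOn F (a • D) μ ↔ IntegrableOn (fun x => F (a • x)) D μ := by
  rw [← image_smul]
  exact (measurePreserving_smul a μ).integrableOn_image (measurableEmbedding_const_smul a)

theorem IsFD.pairwise_aedisjoint {Γ Γ' : Subgroup G} {D : Set α} (h : IsFD Γ D μ) {ι : Type*}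
    (r : ι → G) (hr : ∀ i, r i ∈ Γ)
    (hK : ∀ g ∈ Γ, (∀ x : α, g • x = x) → g ∈ Γ')
    (huniq : ∀ i j, r i * (r j)⁻¹ ∈ Γ' → i = j) :
    Pairwise (AEDisjoint μ on fun i => r i • D) := by
  intro i j hij
  show AEDisjoint μ (r i • D) (r j • D)
  have hmem : (r j)⁻¹ * r i ∈ Γ := Γ.mul_mem (Γ.inv_mem (hr j)) (hr i)
  by_cases htriv : ∀ x : α, ((r j)⁻¹ * r i) • x = x
  · exfalso
    apply hij
    apply huniq
    apply hK _ (Γ.mul_mem (hr i) (Γ.inv_mem (hr j)))
    intro x
    have := htriv ((r j)⁻¹ • x)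
    rw [mul_smul] at this ⊢
    have h2 := congrArg (fun y => r j • y) this
    simpa using h2
  · push Not at htriv
    have h1 := s31p_aedisjoint_smul (μ := μ) (r j) (h.aedisjoint _ hmem htriv)
    have h2 : r j • ((r j)⁻¹ * r i) • D = r i • D := by
      simp [smul_smul]
    rwa [h2] at h1

theorem IsFD.setIntegral_iUnion {Γ Γ' : Subgroup G} {D : Set α} (h : IsFD Γ D μ) {ι : Type*}
    [Fintype ι] (r : ι → G) (hr : ∀ i, r i ∈ Γ)
    (hK : ∀ g ∈ Γ, (∀ x : α, g • x = x) → g ∈ Γ')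
    (huniq : ∀ i j, r i * (r j)⁻¹ ∈ Γ' → i = j)
    {E : Type*} [NormedAddCommGroup E] [NormedSpace ℝ E] {F : α → E}
    (hF : ∀ i, IntegrableOn (fun x => F (r i • x)) D μ) :
    ∫ x in ⋃ i, r i • D, F x ∂μ = ∑ i, ∫ x in D, F (r i • x) ∂μ := by
  have hF' : IntegrableOn F (⋃ i, r i • D) μ := by
    rw [integrableOn_finite_iUnion]
    intro i
    rw [s31p_integrableOn_smul]
    exact hF i
  rw [integral_iUnion_ae (fun i => h.nullMeasurableSet.smul (r i))
    (h.pairwise_aedisjoint r hr hK huniq) hF', tsum_fintype]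
  refine Finset.sum_congr rfl fun i _ => ?_
  exact s31p_setIntegral_smul (r i) F D

theorem IsFD.measure_iUnion {Γ Γ' : Subgroup G} {D : Set α} (h : IsFD Γ D μ) {ι : Type*}
    [Fintype ι] (r : ι → G) (hr : ∀ i, r i ∈ Γ)
    (hK : ∀ g ∈ Γ, (∀ x : α, g • x = x) → g ∈ Γ')
    (huniq : ∀ i j, r i * (r j)⁻¹ ∈ Γ' → i = j) :
    μ (⋃ i, r i • D) = Fintype.card ι * μ D := by
  rw [measure_iUnion₀ (h.pairwise_aedisjoint r hr hK huniq)
    (fun i => h.nullMeasurableSet.smul (r i)), tsum_fintype]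
  simp [measure_smul]

end Fermat.Agent.S31P
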