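import Mathlib

/-!
# S31-P: the hyperbolic measure on the upper half plane

Null sets, finite volume of the standard fundamental domain, positivity on open sets.
-/

set_option autoImplicit false

open MeasureTheory UpperHalfPlane Set
open scoped Modular MatrixGroups ENNReal NNReal

namespace Fermat.Agent.S31P

theorem s31p_volume_eq_zero {s : Set ℍ}
    (h : volume ((↑) '' s : Set ℂ) = 0) : volume s = 0 := by
  rw [UpperHalfPlane.volume_eq_lintegral]
  exact setLIntegral_measure_zero _ _ h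

theorem s31p_volume_re_eq (c : ℝ) : volume {z : ℂ | z.re = c} = 0 := by
  have h := Complex.volume_preserving_equiv_real_prod
  have hs : {z : ℂ | z.re = c} = Complex.measurableEquivRealProd ⁻¹' (({c} : Set ℝ) ×ˢ univ) := by
    ext z
    simp [Complex.measurableEquivRealProd]
  rw [hs, h.measure_preimage_equiv]
  rw [Measure.volume_eq_prod, Measure.prod_prod]
  simp

theorem s31p_volume_fd_diff_fdo : volume (𝒟 \ 𝒟ᵒ) = 0 := by
  apply s31p_volume_eq_zero
  have hsub : ((↑) '' (𝒟 \ 𝒟ᵒ) : Set ℂ) ⊆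
      Metric.sphere (0 : ℂ) 1 ∪ ({z : ℂ | z.re = 1 / 2} ∪ {z : ℂ | z.re = -(1 / 2)}) := by
    rintro _ ⟨z, ⟨hz, hz'⟩, rfl⟩
    have h1 : (z : ℂ) ∈ ((↑) '' 𝒟 : Set ℂ) := ⟨z, hz, rfl⟩
    rw [ModularGroup.coe_fd] at h1
    obtain ⟨h1a, h1b, h1c⟩ := h1
    by_contra hcon
    simp only [mem_union, mem_sphere_iff_norm, sub_zero, mem_ofPred_eq, not_or] at hcon
    obtain ⟨hc1, hc2, hc3⟩ := hcon
    apply hz'
    have h2 : (z : ℂ) ∈ ((↑) '' 𝒟ᵒ : Set ℂ) := by
      rw [ModularGroup.coe_fdo]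
      refine ⟨h1a, lt_of_le_of_ne h1b (Ne.symm hc1), lt_of_le_of_ne h1c ?_⟩
      intro habs
      rcases abs_eq (by norm_num : (0 : ℝ) ≤ 1 / 2) |>.mp habs with h | h
      · exact hc2 h
      · exact hc3 h
    obtain ⟨w, hw, hwz⟩ := h2
    have : w = z := UpperHalfPlane.ext hwz
    rwa [← this]
  refine measure_mono_null hsub ?_
  rw [measure_union_null_iff, measure_union_null_iff]
  exact ⟨Measure.addHaar_sphere _ _ _, s31p_volume_re_eq _, s31p_volume_re_eq _⟩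

theorem s31p_lintegral_Ici_lt_top :
    ∫⁻ y : ℝ in Ici (1 / 2 : ℝ), ((1 / ‖y‖₊) ^ 2 : ℝ≥0) < ⊤ := by
  have hint : IntegrableOn (fun t : ℝ => t ^ (-2 : ℝ)) (Ioi (1 / 4 : ℝ)) :=
    integrableOn_Ioi_rpow_of_lt (by norm_num) (by norm_num)
  have hint' : IntegrableOn (fun t : ℝ => t ^ (-2 : ℝ)) (Ici (1 / 2 : ℝ)) :=
    hint.mono_set (fun x hx => lt_of_lt_of_le (by norm_num) (mem_Ici.mp hx))
  have h2 := hint'.hasFiniteIntegral
  rw [HasFiniteIntegral] at h2
  refine lt_of_le_of_lt (le_of_eq ?_) h2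
  refine setLIntegral_congr_fun measurableSet_Ici fun y hy => ?_
  have hy0 : (0 : ℝ) < y := lt_of_lt_of_le (by norm_num) (mem_Ici.mp hy)
  rw [enorm_eq_nnnorm]
  congr 1
  ext
  simp only [NNReal.coe_pow, NNReal.coe_div, NNReal.coe_one, coe_nnnorm, Real.norm_eq_abs]
  rw [abs_of_pos hy0, abs_of_pos (Real.rpow_pos_of_pos hy0 _), Real.rpow_neg hy0.le]
  rw [show (2 : ℝ) = ((2 : ℕ) : ℝ) by norm_num, Real.rpow_natCast]
  field_simp

theorem s31p_volume_fd_lt_top : volume 𝒟 < ⊤ := by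
  rw [UpperHalfPlane.volume_eq_lintegral, ModularGroup.coe_fd]
  set e := Complex.measurableEquivRealProd
  have hsub : {z : ℂ | 0 < z.im ∧ 1 ≤ ‖z‖ ∧ |z.re| ≤ 1 / 2} ⊆
      e ⁻¹' (Icc (-(1 / 2) : ℝ) (1 / 2) ×ˢ Ici (1 / 2 : ℝ)) := by
    rintro z ⟨h1, h2, h3⟩
    have hre := abs_le.mp h3
    refine ⟨⟨hre.1, hre.2⟩, ?_⟩
    show (1 / 2 : ℝ) ≤ z.im
    have hn : 1 ≤ z.re ^ 2 + z.im ^ 2 := by
      have := Complex.sq_norm z
      rw [Complex.normSq_apply] at this
      nlinarith [norm_nonneg z]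
    have : z.re ^ 2 ≤ 1 / 4 := by
      have := abs_le.mp h3
      nlinarith [sq_abs z.re]
    nlinarith
  refine lt_of_le_of_lt (lintegral_mono_set hsub) ?_
  have h1 : ∫⁻ z : ℂ in e ⁻¹' (Icc (-(1 / 2) : ℝ) (1 / 2) ×ˢ Ici (1 / 2 : ℝ)),
      (((1 / ‖z.im‖₊) ^ 2 : ℝ≥0) : ℝ≥0∞) =
      ∫⁻ p : ℝ × ℝ in (Icc (-(1 / 2) : ℝ) (1 / 2) ×ˢ Ici (1 / 2 : ℝ)),
        (((1 / ‖p.2‖₊) ^ 2 : ℝ≥0) : ℝ≥0∞) :=
    Complex.volume_preserving_equiv_real_prod.setLIntegral_comp_preimage_emb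
      e.measurableEmbedding (fun p : ℝ × ℝ => (((1 / ‖p.2‖₊) ^ 2 : ℝ≥0) : ℝ≥0∞))
      (Icc (-(1 / 2) : ℝ) (1 / 2) ×ˢ Ici (1 / 2 : ℝ))
  rw [h1, Measure.volume_eq_prod, setLIntegral_prod]
  · simp only
    rw [setLIntegral_const]
    refine ENNReal.mul_lt_top s31p_lintegral_Ici_lt_top ?_
    simp
  · apply Measurable.aemeasurable
    fun_prop

instance s31p_isOpenPosMeasure : (volume : Measure ℍ).IsOpenPosMeasure := by
  constructor
  intro U hU hne h0
  have hac : (volume.comap UpperHalfPlane.coe : Measure ℍ) ≪ (volume : Measure ℍ) := by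
    rw [UpperHalfPlane.volume_def]
    apply withDensity_absolutelyContinuous'
    · apply Measurable.aemeasurable
      apply Measurable.coe_nnreal_ennreal
      apply Measurable.pow_const
      apply Measurable.const_div
      exact (UpperHalfPlane.continuous_im.subtype_mk _).measurable
    · refine Filter.Eventually.of_forall fun z => ?_
      have h1 : (NNReal.mk z.im z.im_pos.le) ≠ 0 := by
        intro h
        have := congrArg NNReal.toReal h
        simp at this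
        exact z.im_ne_zero this
      have h2 : (1 / NNReal.mk z.im z.im_pos.le) ^ 2 ≠ 0 :=
        pow_ne_zero _ (div_ne_zero one_ne_zero h1)
      exact_mod_cast h2
  have h1 := hac h0
  rw [UpperHalfPlane.measurableEmbedding_coe.comap_apply] at h1
  have hopen : IsOpen ((↑) '' U : Set ℂ) := UpperHalfPlane.isOpenEmbedding_coe.isOpenMap U hU
  exact (hopen.measure_pos volume (hne.image _)).ne' h1

end Fermat.Agent.S31P
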