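import Fermat.Agent.Lib.S31.Petersson.FD
import Fermat.Agent.Lib.S31.Petersson.Measure

/-!
# S31-P: fundamental domains of finite index subgroups of `SL(2,ℤ)`

The standard domain `𝒟` is a fundamental domain (in the sense of `IsFD`) of `SL(2,ℤ)`, and a union
of translates by coset representatives is a fundamental domain, of finite volume, of a subgroup of
finite index containing `-1`.
-/

set_option autoImplicit false

open MeasureTheory UpperHalfPlane Set Matrix.SpecialLinearGroup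
open scoped Modular MatrixGroups ENNReal NNReal Pointwise

namespace Fermat.Agent.S31P

instance s31p_countable_SL : Countable SL(2, ℤ) := by
  have : Countable (Matrix (Fin 2) (Fin 2) ℤ) := inferInstanceAs (Countable (Fin 2 → Fin 2 → ℤ))
  exact (Subtype.val_injective (p := fun A : Matrix (Fin 2) (Fin 2) ℤ => A.det = 1)).countable

instance s31p_countable_map (Γ : Subgroup SL(2, ℤ)) : Countable (Γ.map (mapGL ℝ)) := by
  have : Function.Surjective (fun g : Γ => (⟨mapGL ℝ (g : SL(2, ℤ)),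
      Subgroup.mem_map_of_mem _ g.2⟩ : Γ.map (mapGL ℝ))) := by
    rintro ⟨_, g, hg, rfl⟩
    exact ⟨⟨g, hg⟩, rfl⟩
  exact this.countable

/-- a point of the open fundamental domain. -/
theorem s31p_two_I_mem_fdo : (⟨2 * Complex.I, by simp⟩ : ℍ) ∈ 𝒟ᵒ := by
  constructor
  · show 1 < Complex.normSq (2 * Complex.I)
    simp [Complex.normSq_apply]
    norm_num
  · show |(2 * Complex.I).re| < 1 / 2
    simp

theorem s31p_eq_one_or_neg_one_of_smul (γ : SL(2, ℤ)) (h : ∀ z : ℍ, γ • z = z) :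
    γ = 1 ∨ γ = -1 := by
  have h1 := s31p_two_I_mem_fdo
  exact ModularGroup.eq_one_or_neg_one_of_mem_fdo_mem_fd h1
    (by rw [h]; exact ModularGroup.fdo_subset_fd h1)

theorem s31p_isFD_top :
    IsFD ((⊤ : Subgroup SL(2, ℤ)).map (mapGL ℝ)) 𝒟 (volume : Measure ℍ) := by
  refine ⟨ModularGroup.isClosed_fd.measurableSet.nullMeasurableSet, ?_, ?_⟩
  · refine Filter.Eventually.of_forall fun z => ?_
    obtain ⟨g, hg⟩ := ModularGroup.exists_smul_mem_fd z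
    exact ⟨mapGL ℝ g, Subgroup.mem_map_of_mem _ (Subgroup.mem_top g), hg⟩
  · rintro _ ⟨γ, -, rfl⟩ ⟨x, hx⟩
    have hγ : ¬ (γ = 1 ∨ γ = -1) := by
      rintro (rfl | rfl)
      · exact hx (by simp)
      · apply hx
        show (-1 : SL(2, ℤ)) • x = x
        simp
    have hsub : (mapGL ℝ γ : GL (Fin 2) ℝ) • 𝒟 ∩ 𝒟 ⊆ (mapGL ℝ γ : GL (Fin 2) ℝ) • (𝒟 \ 𝒟ᵒ) := by
      rintro y ⟨hy1, hy2⟩
      rw [mem_smul_set] at hy1 ⊢
      obtain ⟨z, hz, rfl⟩ := hy1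
      refine ⟨z, ⟨hz, fun hzo => hγ ?_⟩, rfl⟩
      exact ModularGroup.eq_one_or_neg_one_of_mem_fdo_mem_fd hzo hy2
    refine measure_mono_null hsub ?_
    rw [measure_smul]
    exact s31p_volume_fd_diff_fdo

/-- right coset representatives of `Γ` in `SL(2,ℤ)`. -/
noncomputable def s31pReps (Γ : Subgroup SL(2, ℤ)) : Set SL(2, ℤ) :=
  Classical.choose (Γ.exists_isComplement_right 1)

theorem s31pReps_isComplement (Γ : Subgroup SL(2, ℤ)) :
    Subgroup.IsComplement (Γ : Set SL(2, ℤ)) (s31pReps Γ) :=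
  (Classical.choose_spec (Γ.exists_isComplement_right 1)).1

theorem one_mem_s31pReps (Γ : Subgroup SL(2, ℤ)) : (1 : SL(2, ℤ)) ∈ s31pReps Γ :=
  (Classical.choose_spec (Γ.exists_isComplement_right 1)).2

instance s31pReps_finite (Γ : Subgroup SL(2, ℤ)) [Γ.FiniteIndex] : Finite (s31pReps Γ) :=
  (s31pReps_isComplement Γ).finite_right_iff.mpr inferInstance

noncomputable instance s31pReps_fintype (Γ : Subgroup SL(2, ℤ)) [Γ.FiniteIndex] :
    Fintype (s31pReps Γ) := Fintype.ofFinite _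

/-- the representatives in `GL(2,ℝ)`. -/
noncomputable def s31pRepGL (Γ : Subgroup SL(2, ℤ)) (r : s31pReps Γ) : GL (Fin 2) ℝ :=
  mapGL ℝ (r : SL(2, ℤ))

/-- the standard fundamental domain of a subgroup of `SL(2,ℤ)`. -/
noncomputable def s31pDom (Γ : Subgroup SL(2, ℤ)) : Set ℍ :=
  ⋃ r : s31pReps Γ, s31pRepGL Γ r • 𝒟

theorem s31pRepGL_mem (Γ : Subgroup SL(2, ℤ)) (r : s31pReps Γ) :
    s31pRepGL Γ r ∈ (⊤ : Subgroup SL(2, ℤ)).map (mapGL ℝ) :=
  Subgroup.mem_map_of_mem _ (Subgroup.mem_top _)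

theorem s31pReps_hK (Γ : Subgroup SL(2, ℤ)) (hΓ : -1 ∈ Γ) :
    ∀ g ∈ (⊤ : Subgroup SL(2, ℤ)).map (mapGL ℝ), (∀ x : ℍ, g • x = x) → g ∈ Γ.map (mapGL ℝ) := by
  rintro _ ⟨γ, -, rfl⟩ h
  rcases s31p_eq_one_or_neg_one_of_smul γ h with rfl | rfl
  · exact Subgroup.mem_map_of_mem _ (Γ.one_mem)
  · exact Subgroup.mem_map_of_mem _ hΓ

theorem s31pReps_hex (Γ : Subgroup SL(2, ℤ)) :
    ∀ g ∈ (⊤ : Subgroup SL(2, ℤ)).map (mapGL ℝ),
      ∃ r : s31pReps Γ, g * (s31pRepGL Γ r)⁻¹ ∈ Γ.map (mapGL ℝ) := by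
  rintro _ ⟨γ, -, rfl⟩
  obtain ⟨⟨h, t⟩, hht, -⟩ := (s31pReps_isComplement Γ).existsUnique γ
  refine ⟨t, ?_⟩
  have : γ * (t : SL(2, ℤ))⁻¹ = h := by
    rw [← hht]; simp
  rw [s31pRepGL, ← map_inv, ← map_mul, this]
  exact Subgroup.mem_map_of_mem _ h.2

theorem s31pReps_huniq (Γ : Subgroup SL(2, ℤ)) :
    ∀ i j : s31pReps Γ, s31pRepGL Γ i * (s31pRepGL Γ j)⁻¹ ∈ Γ.map (mapGL ℝ) → i = j := by
  intro i j hij
  rw [s31pRepGL, s31pRepGL, ← map_inv, ← map_mul] at hij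
  obtain ⟨h, hh, hhe⟩ := hij
  have hinj : Function.Injective (mapGL ℝ : SL(2, ℤ) →* GL (Fin 2) ℝ) := mapGL_injective
  have h1 := hinj hhe
  have hu := (s31pReps_isComplement Γ).existsUnique (i : SL(2, ℤ))
  obtain ⟨x, -, hux⟩ := hu
  have a := hux (⟨h, hh⟩, j) (by
    show h * (j : SL(2, ℤ)) = i
    rw [h1]; simp)
  have b := hux (⟨1, Γ.one_mem⟩, i) (by simp)
  have := a.trans b.symm
  exact (congrArg Prod.snd this).symm

theorem s31p_isFD_dom (Γ : Subgroup SL(2, ℤ)) [Γ.FiniteIndex] (hΓ : -1 ∈ Γ) :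
    IsFD (Γ.map (mapGL ℝ)) (s31pDom Γ) (volume : Measure ℍ) :=
  s31p_isFD_top.sub (s31pRepGL Γ) (s31pRepGL_mem Γ) (Subgroup.map_mono le_top)
    (s31pReps_hK Γ hΓ) (s31pReps_hex Γ) (s31pReps_huniq Γ)

theorem s31p_volume_dom_lt_top (Γ : Subgroup SL(2, ℤ)) [Γ.FiniteIndex] :
    volume (s31pDom Γ) < ⊤ := by
  refine lt_of_le_of_lt (measure_iUnion_le _) ?_
  rw [tsum_fintype]
  simp only [measure_smul]
  rw [Finset.sum_const, nsmul_eq_mul]
  exact ENNReal.mul_lt_top (by simp) s31p_volume_fd_lt_top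

theorem s31p_fd_subset_dom (Γ : Subgroup SL(2, ℤ)) : 𝒟 ⊆ s31pDom Γ := by
  intro z hz
  rw [s31pDom, mem_iUnion]
  refine ⟨⟨1, one_mem_s31pReps Γ⟩, ?_⟩
  simp [s31pRepGL, hz]

end Fermat.Agent.S31P
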