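import Fermat.Agent.Lib.S31.Petersson.AdjCore
import Fermat.Prelude.Def_CuspForm_HeckeAlgebra
import Fermat.Prelude.Sol.S_ModularForm_heckeT_slash_eq_self_of_mem_Gamma0

/-!
# S31-P: `T_ℓ` (`ℓ ∤ N`) is self-adjoint for the Petersson product on `S₂(Γ₀(N))`
-/

set_option autoImplicit false

open MeasureTheory UpperHalfPlane Set Matrix.SpecialLinearGroup CongruenceSubgroup
open scoped Modular MatrixGroups ENNReal NNReal Pointwise ComplexConjugate Manifold ModularForm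

open P2MW.S_ModularForm_heckeT_slash_eq_self_of_mem_Gamma0.ModularForm.HeckeSlashInvariance
open ModularForm (heckeMatrix heckeDiagMatrix val_heckeMatrix val_heckeDiagMatrix)

namespace Fermat.Agent.S31P

variable {ℓ : ℕ} [Fact ℓ.Prime]

theorem heckeRep_entries_coe (j : ZMod ℓ) :
    ((heckeRep ℓ (j : OnePoint (ZMod ℓ)) : GL (Fin 2) ℝ) : Matrix (Fin 2) (Fin 2) ℝ) =
      !![(1 : ℝ), (j.val : ℝ); 0, (ℓ : ℝ)] := by
  rw [heckeRep_coe, val_heckeMatrix (Fact.out : ℓ.Prime).ne_zero]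

theorem heckeRep_entries_infty :
    ((heckeRep ℓ (OnePoint.infty : OnePoint (ZMod ℓ)) : GL (Fin 2) ℝ) :
      Matrix (Fin 2) (Fin 2) ℝ) = !![(ℓ : ℝ), 0; 0, 1] := by
  rw [heckeRep_infty, val_heckeDiagMatrix (Fact.out : ℓ.Prime).ne_zero]

theorem mapGL_val (g : SL(2, ℤ)) :
    ((mapGL ℝ g : GL (Fin 2) ℝ) : Matrix (Fin 2) (Fin 2) ℝ) =
      !![((g 0 0 : ℤ) : ℝ), ((g 0 1 : ℤ) : ℝ); ((g 1 0 : ℤ) : ℝ), ((g 1 1 : ℤ) : ℝ)] := by
  ext i j
  fin_cases i <;> fin_cases j <;> simp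

theorem heckeRep_inj (x y : OnePoint (ZMod ℓ)) (ε : SL(2, ℤ))
    (h : heckeRep ℓ x = mapGL ℝ ε * heckeRep ℓ y) : x = y := by
  have hℓ : ℓ.Prime := Fact.out
  have h' := congrArg (fun M : GL (Fin 2) ℝ => (M : Matrix (Fin 2) (Fin 2) ℝ)) h
  simp only [Matrix.GeneralLinearGroup.coe_mul, mapGL_val] at h'
  induction x using OnePoint.rec with
  | infty =>
    induction y using OnePoint.rec with
    | infty => rfl
    | coe j =>
      exfalso
      rw [heckeRep_entries_infty, heckeRep_entries_coe] at h'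
      have h10 := congrFun (congrFun h' 1) 0
      have h11 := congrFun (congrFun h' 1) 1
      simp [Matrix.mul_apply, Fin.sum_univ_two] at h10 h11
      have h10' : (ε 1 0 : ℤ) = 0 := by exact_mod_cast h10.symm
      rw [h10'] at h11
      have : (1 : ℤ) = ε 1 1 * ℓ := by
        have : (1 : ℝ) = ((ε 1 1 : ℤ) : ℝ) * (ℓ : ℝ) := by simpa using h11
        exact_mod_cast this
      have hdvd : (ℓ : ℤ) ∣ 1 := ⟨ε 1 1, by rw [mul_comm]; exact this⟩
      have := Int.natAbs_dvd_natAbs.mpr hdvd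
      simp at this
      exact hℓ.one_lt.ne' this
  | coe i =>
    induction y using OnePoint.rec with
    | infty =>
      exfalso
      rw [heckeRep_entries_infty, heckeRep_entries_coe] at h'
      have h00 := congrFun (congrFun h' 0) 0
      simp [Matrix.mul_apply, Fin.sum_univ_two] at h00
      have : (1 : ℤ) = ε 0 0 * ℓ := by exact_mod_cast h00
      have hdvd : (ℓ : ℤ) ∣ 1 := ⟨ε 0 0, by rw [mul_comm]; exact this⟩
      have := Int.natAbs_dvd_natAbs.mpr hdvd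
      simp at this
      exact hℓ.one_lt.ne' this
    | coe j =>
      rw [heckeRep_entries_coe, heckeRep_entries_coe] at h'
      have h00 := congrFun (congrFun h' 0) 0
      have h01 := congrFun (congrFun h' 0) 1
      simp [Matrix.mul_apply, Fin.sum_univ_two] at h00 h01
      have h00' : (ε 0 0 : ℤ) = 1 := by exact_mod_cast h00.symm
      rw [h00'] at h01
      have h01' : (i.val : ℤ) = j.val + ε 0 1 * ℓ := by
        have : ((i.val : ℤ) : ℝ) = ((j.val + ε 0 1 * ℓ : ℤ) : ℝ) := by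
          push_cast
          simpa using h01
        exact_mod_cast this
      have hmod : (i.val : ZMod ℓ) = (j.val : ZMod ℓ) := by
        have := congrArg (Int.cast : ℤ → ZMod ℓ) h01'
        simpa using this
      rw [ZMod.natCast_zmod_val, ZMod.natCast_zmod_val] at hmod
      rw [hmod]

/-- the translation representatives. -/
def sCoe (j : ZMod ℓ) : SL(2, ℤ) :=
  ⟨!![1, (j.val : ℤ); 0, 1], by simp [Matrix.det_fin_two_of]⟩

/-- the last representative. -/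
def sInf (N : ℕ) (u v : ℤ) (h : (ℓ : ℤ) * u - N * v = 1) : SL(2, ℤ) :=
  ⟨!![(ℓ : ℤ) * u, v; (N : ℤ), 1], by rw [Matrix.det_fin_two_of]; linarith⟩

/-- the companion of the last representative. -/
def eInf (N : ℕ) (u v : ℤ) (h : (ℓ : ℤ) * u - N * v = 1) : SL(2, ℤ) :=
  ⟨!![u, v; (N : ℤ), (ℓ : ℤ)], by rw [Matrix.det_fin_two_of]; linarith⟩

theorem sCoe_mem (N : ℕ) (j : ZMod ℓ) : sCoe j ∈ Gamma0 N := by
  rw [Gamma0_mem]
  simp [sCoe]

theorem sInf_mem (N : ℕ) (u v : ℤ) (h : (ℓ : ℤ) * u - N * v = 1) : sInf N u v h ∈ Gamma0 N := by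
  rw [Gamma0_mem]
  simp [sInf]

theorem eInf_mem (N : ℕ) (u v : ℤ) (h : (ℓ : ℤ) * u - N * v = 1) : eInf N u v h ∈ Gamma0 N := by
  rw [Gamma0_mem]
  simp [eInf]

theorem rel_coe (j : ZMod ℓ) :
    heckeRep ℓ ((0 : ZMod ℓ) : OnePoint (ZMod ℓ)) * mapGL ℝ (sCoe j) =
      1 * heckeRep ℓ (j : OnePoint (ZMod ℓ)) := by
  apply Matrix.GeneralLinearGroup.ext
  intro a b
  rw [one_mul, Matrix.GeneralLinearGroup.coe_mul, heckeRep_entries_coe, heckeRep_entries_coe,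
    mapGL_val]
  fin_cases a <;> fin_cases b <;> simp [sCoe, Matrix.mul_apply, Fin.sum_univ_two]

theorem rel_infty (N : ℕ) (u v : ℤ) (h : (ℓ : ℤ) * u - N * v = 1) :
    heckeRep ℓ ((0 : ZMod ℓ) : OnePoint (ZMod ℓ)) * mapGL ℝ (sInf N u v h) =
      mapGL ℝ (eInf N u v h) * heckeRep ℓ (OnePoint.infty : OnePoint (ZMod ℓ)) := by
  apply Matrix.GeneralLinearGroup.ext
  intro a b
  rw [Matrix.GeneralLinearGroup.coe_mul, Matrix.GeneralLinearGroup.coe_mul, heckeRep_entries_coe,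
    heckeRep_entries_infty, mapGL_val, mapGL_val]
  fin_cases a <;> fin_cases b <;> simp [sInf, eInf, Matrix.mul_apply, Fin.sum_univ_two] <;> ring

/-- the scalar matrix `ℓ`. -/
theorem heckeRep_infty_mul_zero :
    ((heckeRep ℓ (OnePoint.infty : OnePoint (ZMod ℓ)) *
      heckeRep ℓ ((0 : ZMod ℓ) : OnePoint (ZMod ℓ)) : GL (Fin 2) ℝ) :
      Matrix (Fin 2) (Fin 2) ℝ) = !![(ℓ : ℝ), 0; 0, (ℓ : ℝ)] := by
  rw [Matrix.GeneralLinearGroup.coe_mul, heckeRep_entries_coe, heckeRep_entries_infty]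
  ext a b
  fin_cases a <;> fin_cases b <;> simp [Matrix.mul_apply, Fin.sum_univ_two]

theorem central_of_scalar {z : GL (Fin 2) ℝ} {c : ℝ}
    (hz : (z : Matrix (Fin 2) (Fin 2) ℝ) = !![c, 0; 0, c]) (a : GL (Fin 2) ℝ) :
    a * z = z * a := by
  apply Matrix.GeneralLinearGroup.ext
  intro i j
  rw [Matrix.GeneralLinearGroup.coe_mul, Matrix.GeneralLinearGroup.coe_mul, hz]
  fin_cases i <;> fin_cases j <;> simp [Matrix.mul_apply, Fin.sum_univ_two, mul_comm]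

theorem slash_two_scalar {z : GL (Fin 2) ℝ} {c : ℝ} (hc : 0 < c)
    (hz : (z : Matrix (Fin 2) (Fin 2) ℝ) = !![c, 0; 0, c]) (F : ℍ → ℂ) :
    F ∣[(2 : ℤ)] z = F := by
  have hdet : z.det.val = c * c := by
    rw [Matrix.GeneralLinearGroup.val_det_apply, hz, Matrix.det_fin_two_of]
    ring
  have hdetpos : 0 < z.det.val := by rw [hdet]; positivity
  have hc' : (c : ℂ) ≠ 0 := by exact_mod_cast hc.ne'
  ext τ
  have hsmul : z • τ = τ := by
    apply UpperHalfPlane.ext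
    rw [UpperHalfPlane.coe_smul_of_det_pos hdetpos]
    simp [UpperHalfPlane.num, UpperHalfPlane.denom, hz]
    field_simp
  have hden : denom z τ = c := by
    simp [UpperHalfPlane.denom, hz]
  rw [ModularForm.slash_apply, hsmul, hden, hdet]
  have : σ z = .refl ℝ ℂ := by rw [σ, if_pos hdetpos]
  rw [this]
  simp only [ContinuousAlgEquiv.refl_apply]
  rw [abs_of_pos (by positivity)]
  push_cast
  field_simp

theorem heckeRep_det_pos (x : OnePoint (ZMod ℓ)) : 0 < (heckeRep ℓ x).det.val := by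
  induction x using OnePoint.rec with
  | infty => exact ModularForm.det_heckeDiagMatrix_pos ℓ
  | coe j => exact ModularForm.det_heckeMatrix_pos ℓ _

theorem mem_Gamma0_of_dvd {N : ℕ} {g : SL(2, ℤ)} (h : (N : ℤ) ∣ g 1 0) : g ∈ Gamma0 N :=
  Gamma0_mem.mpr ((ZMod.intCast_zmod_eq_zero_iff_dvd _ _).mpr h)

theorem dvd_of_mem_Gamma0 {N : ℕ} {g : SL(2, ℤ)} (h : g ∈ Gamma0 N) : (N : ℤ) ∣ g 1 0 :=
  (ZMod.intCast_zmod_eq_zero_iff_dvd _ _).mp (Gamma0_mem.mp h)

/-- the adjointness data of `T_ℓ` on `Γ₀(N)`. -/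
theorem exists_adjData (N : ℕ) (hℓN : ¬ ℓ ∣ N) :
    ∃ A : AdjData ((Gamma0 N).map (mapGL ℝ)) (OnePoint (ZMod ℓ)), A.ρ = heckeRep ℓ := by
  have hℓ : ℓ.Prime := Fact.out
  have hcop : IsCoprime (ℓ : ℤ) (N : ℤ) :=
    Nat.isCoprime_iff_coprime.mpr ((Nat.Prime.coprime_iff_not_dvd hℓ).mpr hℓN)
  obtain ⟨a, b, hab⟩ := hcop
  have h : (ℓ : ℤ) * a - N * (-b) = 1 := by linarith
  refine ⟨{
    ρ := heckeRep ℓ
    det_pos := heckeRep_det_pos
    x₀ := ((0 : ZMod ℓ) : OnePoint (ZMod ℓ))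
    act₀ := ?_
    inj := ?_
    s := fun x => x.elim (mapGL ℝ (sInf N a (-b) h)) (fun j => mapGL ℝ (sCoe j))
    s_mem := ?_
    e := fun x => x.elim (mapGL ℝ (eInf N a (-b) h)) (fun _ => 1)
    e_mem := ?_
    rel := ?_
    x₁ := OnePoint.infty
    central := central_of_scalar heckeRep_infty_mul_zero
    slash_triv := slash_two_scalar (by exact_mod_cast hℓ.pos) heckeRep_infty_mul_zero }, rfl⟩
  · rintro _ ⟨g, hg, rfl⟩
    obtain ⟨g', hg', hmul⟩ := heckeRep_mul hℓN g (dvd_of_mem_Gamma0 hg)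
      ((0 : ZMod ℓ) : OnePoint (ZMod ℓ))
    exact ⟨_, mapGL ℝ g', Subgroup.mem_map_of_mem _ (mem_Gamma0_of_dvd hg'), hmul⟩
  · rintro x y _ ⟨ε, -, rfl⟩ hxy
    exact heckeRep_inj x y ε hxy
  · intro x
    induction x using OnePoint.rec with
    | infty => exact Subgroup.mem_map_of_mem _ (sInf_mem N a (-b) h)
    | coe j => exact Subgroup.mem_map_of_mem _ (sCoe_mem N j)
  · intro x
    induction x using OnePoint.rec with
    | infty => exact Subgroup.mem_map_of_mem _ (eInf_mem N a (-b) h)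
    | coe j => exact Subgroup.one_mem _
  · intro x
    induction x using OnePoint.rec with
    | infty => exact rel_infty N a (-b) h
    | coe j => exact rel_coe j

theorem neg_one_mem_Gamma0' (N : ℕ) : (-1 : SL(2, ℤ)) ∈ Gamma0 N := by
  rw [Gamma0_mem]
  simp

theorem hker_Gamma0 (N : ℕ) : ∀ γ ∈ (Gamma0 N).map (mapGL ℝ), (∀ τ : ℍ, γ • τ = τ) →
    ∀ a : GL (Fin 2) ℝ, a * γ = γ * a := by
  rintro _ ⟨g, -, rfl⟩ htriv a
  rcases s31p_eq_one_or_neg_one_of_smul g htriv with rfl | rfl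
  · simp
  · refine central_of_scalar (c := -1) ?_ a
    rw [mapGL_val]
    simp

theorem det_pos_Gamma0 (N : ℕ) : ∀ γ ∈ (Gamma0 N).map (mapGL ℝ), 0 < γ.det.val := by
  rintro _ ⟨g, -, rfl⟩
  simp

theorem petersson_sum_left {ι : Type*} (s : Finset ι) (k : ℤ) (F : ι → ℍ → ℂ) (g : ℍ → ℂ)
    (τ : ℍ) : petersson k (∑ i ∈ s, F i) g τ = ∑ i ∈ s, petersson k (F i) g τ := by
  simp only [petersson, Finset.sum_apply, map_sum, Finset.sum_mul]

theorem petersson_sum_right {ι : Type*} (s : Finset ι) (k : ℤ) (f : ℍ → ℂ) (G : ι → ℍ → ℂ)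
    (τ : ℍ) : petersson k f (∑ i ∈ s, G i) τ = ∑ i ∈ s, petersson k f (G i) τ := by
  simp only [petersson, Finset.sum_apply, Finset.mul_sum, Finset.sum_mul]

variable (N : ℕ) [NeZero N]

theorem pInt_heckeT_adjoint {ℓ : ℕ} (hℓ : ℓ.Prime) (hℓN : ¬ ℓ ∣ N)
    (f g : CuspForm (Gamma0 N) 2) :
    pInt (Gamma0 N) 2 (CuspForm.heckeTLin 2 hℓ hℓN f) g =
      pInt (Gamma0 N) 2 f (CuspForm.heckeTLin 2 hℓ hℓN g) := by
  have : Fact ℓ.Prime := ⟨hℓ⟩
  have : NeZero ℓ := ⟨hℓ.ne_zero⟩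
  obtain ⟨A, hA⟩ := exists_adjData (ℓ := ℓ) N hℓN
  obtain ⟨Cf, hCf⟩ := CuspFormClass.petersson_bounded_left 2 (Gamma0 N) f f
  obtain ⟨Cg, hCg⟩ := CuspFormClass.petersson_bounded_left 2 (Gamma0 N) g g
  have hf : ∀ γ ∈ (Gamma0 N).map (mapGL ℝ), (f : ℍ → ℂ) ∣[(2 : ℤ)] γ = f := fun γ hγ =>
    SlashInvariantFormClass.slash_action_eq f γ hγ
  have hg : ∀ γ ∈ (Gamma0 N).map (mapGL ℝ), (g : ℍ → ℂ) ∣[(2 : ℤ)] γ = g := fun γ hγ =>
    SlashInvariantFormClass.slash_action_eq g γ hγ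
  have hfc := continuous_cuspForm (Gamma0 N) 2 f
  have hgc := continuous_cuspForm (Gamma0 N) 2 g
  have hDfin := s31p_volume_dom_lt_top (Gamma0 N)
  have key := A.adjoint_sum hf hg (det_pos_Gamma0 N)
    (s31p_isFD_dom (Gamma0 N) (neg_one_mem_Gamma0' N)) hDfin (hker_Gamma0 N) hfc hgc hCf hCg
  rw [hA] at key
  have hb : ∀ (a b : GL (Fin 2) ℝ), 0 < a.det.val → 0 < b.det.val →
      IntegrableOn (petersson 2 ((f : ℍ → ℂ) ∣[(2 : ℤ)] a) ((g : ℍ → ℂ) ∣[(2 : ℤ)] b))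
        (s31pDom (Gamma0 N)) volume := fun a b ha hb =>
    s31p_integrableOn_of_bounded
      (petersson_continuous 2 (continuous_slash hfc 2 a) (continuous_slash hgc 2 b))
      (AdjData.norm_petersson_slash_le hCf hCg a b ha hb) hDfin
  have hdetρ : ∀ x, 0 < (heckeRep ℓ x).det.val := fun x => by rw [← hA]; exact A.det_pos x
  have e1 : pInt (Gamma0 N) 2 (CuspForm.heckeTLin 2 hℓ hℓN f) g =
      ∑ x, ∫ τ in s31pDom (Gamma0 N), petersson 2 ((f : ℍ → ℂ) ∣[(2 : ℤ)] heckeRep ℓ x) g τ := by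
    rw [pInt, CuspForm.coe_heckeTLin_apply, heckeT_eq_sum_onePoint]
    rw [← integral_finsetSum]
    · refine integral_congr_ae (Filter.Eventually.of_forall fun τ => ?_)
      exact petersson_sum_left _ _ _ _ τ
    · intro x _
      have := hb (heckeRep ℓ x) 1 (hdetρ x) (by simp)
      rwa [SlashAction.slash_one] at this
  have e2 : pInt (Gamma0 N) 2 f (CuspForm.heckeTLin 2 hℓ hℓN g) =
      ∑ x, ∫ τ in s31pDom (Gamma0 N), petersson 2 f ((g : ℍ → ℂ) ∣[(2 : ℤ)] heckeRep ℓ x) τ := by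
    rw [pInt, CuspForm.coe_heckeTLin_apply, heckeT_eq_sum_onePoint]
    rw [← integral_finsetSum]
    · refine integral_congr_ae (Filter.Eventually.of_forall fun τ => ?_)
      exact petersson_sum_right _ _ _ _ τ
    · intro x _
      have := hb 1 (heckeRep ℓ x) (by simp) (hdetρ x)
      rwa [SlashAction.slash_one] at this
  rw [e1, e2]
  exact key

end Fermat.Agent.S31P
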