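import Fermat.Agent.Lib.S31.Petersson.FDModular

/-!
# S31-P: the Petersson inner product on `CuspForm Γ k`

`pInt Γ k f g = ∫_{𝒟_Γ} conj (f τ) g τ (im τ)^k dμ` is a positive definite Hermitian form on the
space of cusp forms of a finite index subgroup of `SL(2,ℤ)`.
-/

set_option autoImplicit false

open MeasureTheory UpperHalfPlane Set Matrix.SpecialLinearGroup
open scoped Modular MatrixGroups ENNReal NNReal Pointwise ComplexConjugate Manifold

namespace Fermat.Agent.S31P

/-- a bounded continuous function is integrable on sets of finite volume -/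
theorem s31p_integrableOn_of_bounded {F : ℍ → ℂ} (hF : Continuous F) {C : ℝ}
    (hC : ∀ τ, ‖F τ‖ ≤ C) {D : Set ℍ} (hD : volume D < ⊤) : IntegrableOn F D volume :=
  Measure.integrableOn_of_bounded hD.ne hF.aestronglyMeasurable
    (Filter.Eventually.of_forall hC)

/-- the identity theorem on the upper half plane -/
theorem s31p_eq_zero_of_eqOn {f : ℍ → ℂ} (hf : MDifferentiable 𝓘(ℂ) 𝓘(ℂ) f) {U : Set ℍ}
    (hU : IsOpen U) (hne : U.Nonempty) (h0 : ∀ τ ∈ U, f τ = 0) : f = 0 := by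
  obtain ⟨τ₀, hτ₀⟩ := hne
  have han := (UpperHalfPlane.mdifferentiable_iff.mp hf).analyticOnNhd isOpen_upperHalfPlaneSet
  have hpre : IsPreconnected {z : ℂ | 0 < z.im} :=
    (convex_halfSpace_im_gt 0).isPreconnected
  have hU' : IsOpen ((↑) '' U : Set ℂ) := UpperHalfPlane.isOpenEmbedding_coe.isOpenMap U hU
  have hev : (f ∘ ofComplex) =ᶠ[nhds (τ₀ : ℂ)] 0 := by
    filter_upwards [hU'.mem_nhds ⟨τ₀, hτ₀, rfl⟩] with z hz
    obtain ⟨τ, hτ, rfl⟩ := hz
    simp [h0 τ hτ]
  have := han.eqOn_zero_of_preconnected_of_eventuallyEq_zero hpre τ₀.im_pos hev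
  ext w
  have h2 := this w.im_pos
  simpa [Function.comp_apply, ofComplex_apply] using h2

/-- the Petersson integral over the standard fundamental domain of `Γ`. -/
noncomputable def pInt (Γ : Subgroup SL(2, ℤ)) (k : ℤ) (f g : ℍ → ℂ) : ℂ :=
  ∫ τ in s31pDom Γ, petersson k f g τ

variable (Γ : Subgroup SL(2, ℤ)) [Γ.FiniteIndex] (k : ℤ)

theorem continuous_cuspForm (f : CuspForm Γ k) : Continuous (f : ℍ → ℂ) :=
  (CuspFormClass.holo f).continuous

theorem integrableOn_petersson (f g : CuspForm Γ k) {D : Set ℍ} (hD : volume D < ⊤) :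
    IntegrableOn (petersson k f g) D volume := by
  obtain ⟨C, hC⟩ := CuspFormClass.petersson_bounded_left k Γ f g
  exact s31p_integrableOn_of_bounded
    (petersson_continuous k (continuous_cuspForm Γ k f) (continuous_cuspForm Γ k g)) hC hD

theorem pInt_add_left (f₁ f₂ g : CuspForm Γ k) :
    pInt Γ k (f₁ + f₂ : CuspForm Γ k) g = pInt Γ k f₁ g + pInt Γ k f₂ g := by
  unfold pInt
  rw [← integral_add (integrableOn_petersson Γ k f₁ g (s31p_volume_dom_lt_top Γ))
    (integrableOn_petersson Γ k f₂ g (s31p_volume_dom_lt_top Γ))]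
  refine integral_congr_ae (Filter.Eventually.of_forall fun τ => ?_)
  simp [petersson, add_mul]

theorem pInt_smul_left (c : ℂ) (f g : CuspForm Γ k) :
    pInt Γ k (c • f : CuspForm Γ k) g = conj c * pInt Γ k f g := by
  unfold pInt
  rw [← integral_const_mul]
  refine integral_congr_ae (Filter.Eventually.of_forall fun τ => ?_)
  simp [petersson, mul_assoc]

theorem pInt_conj_symm (f g : ℍ → ℂ) :
    conj (pInt Γ k g f) = pInt Γ k f g := by
  unfold pInt
  rw [← integral_conj]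
  refine integral_congr_ae (Filter.Eventually.of_forall fun τ => ?_)
  simp only
  rw [← petersson_symm]

theorem petersson_self (f : ℍ → ℂ) (τ : ℍ) :
    petersson k f f τ = ((‖f τ‖ ^ 2 * τ.im ^ k : ℝ) : ℂ) := by
  rw [petersson, Complex.conj_mul']
  push_cast
  rfl

theorem pInt_self (f : ℍ → ℂ) :
    pInt Γ k f f = ((∫ τ in s31pDom Γ, ‖f τ‖ ^ 2 * τ.im ^ k : ℝ) : ℂ) := by
  unfold pInt
  rw [← integral_complex_ofReal]
  refine integral_congr_ae (Filter.Eventually.of_forall fun τ => ?_)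
  exact petersson_self k f τ

theorem pInt_self_nonneg (f : ℍ → ℂ) : 0 ≤ (pInt Γ k f f).re := by
  rw [pInt_self, Complex.ofReal_re]
  refine integral_nonneg fun τ => ?_
  have := τ.im_pos
  positivity

theorem s31p_two_I_mem_fdo' : (⟨2 * Complex.I, by simp⟩ : ℍ) ∈ 𝒟ᵒ := s31p_two_I_mem_fdo

theorem pInt_self_eq_zero (f : CuspForm Γ k) (h : pInt Γ k f f = 0) : f = 0 := by
  rw [pInt_self] at h
  have h0 : ∫ τ in s31pDom Γ, ‖f τ‖ ^ 2 * τ.im ^ k = 0 := by exact_mod_cast h
  have hint : IntegrableOn (fun τ : ℍ => ‖f τ‖ ^ 2 * τ.im ^ k) (s31pDom Γ) volume := by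
    have h1 := (integrableOn_petersson Γ k f f (s31p_volume_dom_lt_top Γ)).norm
    refine h1.congr (Filter.Eventually.of_forall fun τ => ?_)
    simp only
    rw [petersson_self, Complex.norm_real, Real.norm_of_nonneg]
    have := τ.im_pos
    positivity
  have hnn : 0 ≤ᵐ[volume.restrict (s31pDom Γ)] fun τ : ℍ => ‖f τ‖ ^ 2 * τ.im ^ k :=
    Filter.Eventually.of_forall fun τ => by
      have := τ.im_pos
      show 0 ≤ ‖f τ‖ ^ 2 * τ.im ^ k
      positivity
  have hae := (integral_eq_zero_iff_of_nonneg_ae hnn hint).mp h0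
  have hsub : 𝒟ᵒ ⊆ s31pDom Γ := ModularGroup.fdo_subset_fd.trans (s31p_fd_subset_dom Γ)
  have hae' : (fun τ : ℍ => ‖f τ‖ ^ 2 * τ.im ^ k) =ᵐ[volume.restrict 𝒟ᵒ] 0 :=
    ae_restrict_of_ae_restrict_of_subset hsub hae
  have hcont : Continuous (fun τ : ℍ => ‖f τ‖ ^ 2 * τ.im ^ k) := by
    have h1 := continuous_cuspForm Γ k f
    have h2 : Continuous fun τ : ℍ => τ.im ^ k :=
      UpperHalfPlane.continuous_im.zpow₀ k fun τ => Or.inl τ.im_ne_zero
    exact (h1.norm.pow 2).mul h2
  have heq := Measure.eqOn_open_of_ae_eq hae' ModularGroup.isOpen_fdo hcont.continuousOn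
    continuousOn_const
  have hf0 : ∀ τ ∈ 𝒟ᵒ, (f : ℍ → ℂ) τ = 0 := by
    intro τ hτ
    have := heq hτ
    simp only [Pi.zero_apply, mul_eq_zero] at this
    rcases this with h1 | h1
    · simpa using h1
    · exact absurd h1 (zpow_ne_zero _ τ.im_ne_zero)
  have := s31p_eq_zero_of_eqOn (CuspFormClass.holo f) ModularGroup.isOpen_fdo
    ⟨_, s31p_two_I_mem_fdo⟩ hf0
  exact DFunLike.coe_injective this

end Fermat.Agent.S31P
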